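import Mathlib.RingTheory.Depth.Rees
import Mathlib.RingTheory.Regular.Free
import Mathlib.RingTheory.LocalRing.Quotient
import Mathlib.RingTheory.Ideal.Quotient.Noetherian
import Mathlib.RingTheory.Ideal.AssociatedPrime.Finiteness

set_option autoImplicit false

namespace Fermat.Agent.S57.CoreAlt

universe u

open IsLocalRing RingTheory.Sequence CategoryTheory Abelian

theorem exists_mem_not_mem_sq_isSMulRegular {R : Type u} [CommRing R] [IsLocalRing R]
    [IsNoetherianRing R] (M : Type u) [AddCommGroup M] [Module R M] [Module.Finite R M]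
    [Nontrivial M] (a : R) (ha : a ∈ maximalIdeal R) (hreg : IsSMulRegular M a) :
    ∃ t ∈ maximalIdeal R, t ∉ (maximalIdeal R) ^ 2 ∧ IsSMulRegular M t := by
  by_contra! h
  have hsub : ((maximalIdeal R : Ideal R) : Set R) ⊆
      ⋃ i ∈ (insert ((maximalIdeal R) ^ 2) (associatedPrimes R M)), ((id i : Ideal R) : Set R) := by
    intro t ht
    by_cases h2 : t ∈ (maximalIdeal R) ^ 2
    · exact Set.mem_biUnion (Set.mem_insert _ _) h2
    · have h3 := h t ht h2
      have h4 : t ∈ ⋃ p ∈ associatedPrimes R M, (p : Set R) := by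
        rw [biUnion_associatedPrimes_eq_compl_regular R M]
        exact h3
      obtain ⟨p, hp, htp⟩ := Set.mem_iUnion₂.mp h4
      exact Set.mem_biUnion (Set.mem_insert_of_mem _ hp) htp
  obtain ⟨i, hi, hle⟩ := (Ideal.subset_union_prime_finite
    ((associatedPrimes.finite R M).insert ((maximalIdeal R) ^ 2))
    ((maximalIdeal R) ^ 2) ((maximalIdeal R) ^ 2) (f := id) (fun i hi h1 _ => by
      rcases hi with rfl | hi
      · exact absurd rfl h1
      · exact IsAssociatedPrime.isPrime hi)).mp hsub
  rcases hi with rfl | hi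
  · have hbot : maximalIdeal R = ⊥ := by
      apply Submodule.eq_bot_of_le_smul_of_le_jacobson_bot (maximalIdeal R) (maximalIdeal R)
        (IsNoetherian.noetherian _)
      · rw [smul_eq_mul, ← pow_two]
        exact hle
      · exact IsLocalRing.maximalIdeal_le_jacobson _
    have h0 : a = 0 := by simpa [hbot] using ha
    subst h0
    exact not_subsingleton M (IsSMulRegular.zero_iff_subsingleton.mp hreg)
  · have h5 : a ∈ ⋃ p ∈ associatedPrimes R M, (p : Set R) := Set.mem_biUnion hi (hle ha)
    rw [biUnion_associatedPrimes_eq_compl_regular R M] at h5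
    exact h5 hreg


theorem exists_finset_span_quotient {R : Type u} [CommRing R] [IsLocalRing R] (n : ℕ)
    (s : Finset R) (hs : s.card ≤ n + 1) (hspan : Ideal.span (s : Set R) = maximalIdeal R)
    (t : R) (ht : t ∈ maximalIdeal R) (ht2 : t ∉ (maximalIdeal R) ^ 2) :
    ∃ s' : Finset (R ⧸ Ideal.span {t}), s'.card ≤ n ∧
      Ideal.span (s' : Set (R ⧸ Ideal.span {t})) =
        (maximalIdeal R).map (Ideal.Quotient.mk (Ideal.span {t})) := by
  classical
  have ht' : t ∈ Ideal.span (s : Set R) := hspan ▸ ht
  obtain ⟨c, -, hc⟩ := Submodule.mem_span_finset.mp ht'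
  have hex : ∃ j ∈ s, IsUnit (c j) := by
    by_contra! hno
    apply ht2
    rw [← hc]
    refine Ideal.sum_mem _ (fun i hi => ?_)
    rw [pow_two, smul_eq_mul]
    refine Ideal.mul_mem_mul ?_ (hspan ▸ Ideal.subset_span hi)
    exact (IsLocalRing.mem_maximalIdeal _).mpr (hno i hi)
  obtain ⟨j, hj, hu⟩ := hex
  refine ⟨(s.erase j).image (Ideal.Quotient.mk (Ideal.span {t})), ?_, ?_⟩
  · have h1 : ((s.erase j).image (Ideal.Quotient.mk (Ideal.span {t}))).card ≤ (s.erase j).card :=
      Finset.card_image_le
    have h2 : (s.erase j).card = s.card - 1 := Finset.card_erase_of_mem hj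
    omega
  · rw [← hspan, Ideal.map_span]
    apply le_antisymm
    · apply Ideal.span_mono
      rw [Finset.coe_image]
      exact Set.image_mono (Finset.coe_subset.mpr (Finset.erase_subset _ _))
    · rw [Ideal.span_le]
      rintro _ ⟨i, hi, rfl⟩
      by_cases hij : i = j
      · subst hij
        have h0 : (Ideal.Quotient.mk (Ideal.span {t})) (∑ a ∈ s, c a • a) = 0 := by
          rw [hc]
          exact Ideal.Quotient.eq_zero_iff_mem.mpr (Ideal.mem_span_singleton_self t)
        rw [map_sum, ← Finset.add_sum_erase s _ hi] at h0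
        obtain ⟨v, hv⟩ := hu.exists_left_inv
        have h1 : (Ideal.Quotient.mk (Ideal.span {t})) i =
            - ((Ideal.Quotient.mk (Ideal.span {t})) v *
              ∑ k ∈ s.erase i, (Ideal.Quotient.mk (Ideal.span {t})) (c k • k)) := by
          have h2 := congrArg (fun z => (Ideal.Quotient.mk (Ideal.span {t})) v * z) h0
          simp only [mul_add, mul_zero, smul_eq_mul, map_mul] at h2
          rw [← mul_assoc, ← map_mul, hv, map_one, one_mul] at h2
          rw [eq_neg_iff_add_eq_zero]
          simpa [smul_eq_mul, map_mul] using h2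
        rw [h1]
        apply neg_mem
        apply Ideal.mul_mem_left
        apply Ideal.sum_mem
        intro k hk
        rw [smul_eq_mul, map_mul]
        apply Ideal.mul_mem_left
        apply Ideal.subset_span
        rw [Finset.coe_image]
        exact ⟨k, hk, rfl⟩
      · apply Ideal.subset_span
        rw [Finset.coe_image]
        exact ⟨i, Finset.mem_coe.mpr (Finset.mem_erase.mpr ⟨hij, hi⟩), rfl⟩

theorem exists_isRegular_quotSMulTop {R : Type u} [CommRing R] [IsLocalRing R]
    [IsNoetherianRing R] (M : Type u) [AddCommGroup M] [Module R M] [Module.Finite R M] (n : ℕ)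
    (rs : List R) (hlen : rs.length = n + 1) (hmem : ∀ r ∈ rs, r ∈ maximalIdeal R)
    (hreg : IsRegular M rs) (x : R) (hx : x ∈ maximalIdeal R) (hxreg : IsSMulRegular M x) :
    ∃ rs' : List R, rs'.length = n ∧ (∀ r ∈ rs', r ∈ maximalIdeal R) ∧
      IsRegular (QuotSMulTop x M) rs' := by
  have : Nontrivial M := hreg.nontrivial
  have smul_lt : (maximalIdeal R) • (⊤ : Submodule R M) < ⊤ :=
    Ne.lt_top (Ne.symm (Submodule.top_ne_ideal_smul_of_le_jacobson_annihilator
      (IsLocalRing.maximalIdeal_le_jacobson _)))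
  have h4 : ∃ rs : List R, rs.length = n + 1 ∧ (∀ r ∈ rs, r ∈ maximalIdeal R) ∧
      RingTheory.Sequence.IsRegular (ModuleCat.of R M) rs := ⟨rs, hlen, hmem, hreg⟩
  have h1 := ((ModuleCat.exists_isRegular_tfae (maximalIdeal R) (n + 1) (ModuleCat.of R M)
    smul_lt).out 3 1).mp h4
  let N := ModuleCat.of R (Shrink.{u} (R ⧸ maximalIdeal R))
  have suppQ : Module.support R (Shrink.{u} (R ⧸ maximalIdeal R)) =
      PrimeSpectrum.zeroLocus (maximalIdeal R) := by
    rw [(Shrink.linearEquiv R _).support_eq, Module.support_eq_zeroLocus,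
      Ideal.annihilator_quotient]
  have hxreg' : IsSMulRegular (ModuleCat.of R M) x := hxreg
  have h_ext' : ∀ i < n, Subsingleton (Ext N (ModuleCat.of R (QuotSMulTop x M)) i) := by
    intro i hi
    have zero1 := AddCommGrpCat.isZero_of_iff_subsingleton.mpr (h1 i (by omega))
    have zero2 := AddCommGrpCat.isZero_of_iff_subsingleton.mpr (h1 (i + 1) (by omega))
    exact AddCommGrpCat.subsingleton_of_isZero <| ShortComplex.Exact.isZero_of_both_zeros
      ((Ext.covariant_sequence_exact₃' N (hxreg'.smulShortComplex_shortExact)) i (i + 1) rfl)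
      (zero1.eq_zero_of_src _) (zero2.eq_zero_of_tgt _)
  have : Nontrivial (QuotSMulTop x M) := nontrivial_quotSMulTop_of_mem_maximalIdeal M hx
  have smul_lt' : (maximalIdeal R) • (⊤ : Submodule R (QuotSMulTop x M)) < ⊤ :=
    Ne.lt_top (Ne.symm (Submodule.top_ne_ideal_smul_of_le_jacobson_annihilator
      (IsLocalRing.maximalIdeal_le_jacobson _)))
  exact ModuleCat.exists_isRegular_of_exists_subsingleton_ext (maximalIdeal R) n
    (ModuleCat.of R (QuotSMulTop x M)) smul_lt' N suppQ h_ext'


theorem free_of_isRegular_of_span (n : ℕ) :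
    ∀ (R : Type u) [CommRing R] [IsLocalRing R] [IsNoetherianRing R] (M : Type u)
      [AddCommGroup M] [Module R M] [Module.Finite R M] (s : Finset R) (rs : List R),
      s.card ≤ n → Ideal.span (s : Set R) = maximalIdeal R →
      rs.length = n → IsRegular M rs → Module.Free R M := by
  induction n with
  | zero =>
    intro R _ _ _ M _ _ _ s rs hs hspan _ _
    have hs0 : s = ∅ := Finset.card_eq_zero.mp (Nat.le_zero.mp hs)
    subst hs0
    have hbot : maximalIdeal R = ⊥ := by rw [← hspan]; simp
    have hf : IsField R := IsLocalRing.isField_iff_maximalIdeal_eq.mpr hbot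
    let _ := hf.toField
    exact Module.Free.of_divisionRing R M
  | succ n ih =>
    intro R _ _ _ M _ _ _ s rs hs hspan hlen hreg
    have hM : Nontrivial M := hreg.nontrivial
    have hmem : ∀ r ∈ rs, r ∈ maximalIdeal R := by
      intro r hr
      refine IsLocalRing.le_maximalIdeal ?_ (Ideal.subset_span (show r ∈ {r | r ∈ rs} from hr))
      intro htop
      apply hreg.top_ne_smul
      have htop' : Ideal.ofList rs = ⊤ := htop
      rw [htop', Submodule.top_smul]
    obtain ⟨a, rs', rfl⟩ : ∃ a rs', rs = a :: rs' := by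
      cases rs with
      | nil => simp at hlen
      | cons a rs' => exact ⟨a, rs', rfl⟩
    have ha : a ∈ maximalIdeal R := hmem a List.mem_cons_self
    have hareg : IsSMulRegular M a := ((isRegular_cons_iff M a rs').mp hreg).1
    obtain ⟨t, ht, ht2, htreg⟩ := exists_mem_not_mem_sq_isSMulRegular M a ha hareg
    obtain ⟨rs'', hlen'', -, hreg''⟩ :=
      exists_isRegular_quotSMulTop M n (a :: rs') hlen hmem hreg t ht htreg
    obtain ⟨s', hs', hspan'⟩ := exists_finset_span_quotient n s hs hspan t ht ht2
    have hne : Ideal.span {t} ≠ (⊤ : Ideal R) := by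
      intro h
      exact ((IsLocalRing.mem_maximalIdeal t).mp ht) (Ideal.span_singleton_eq_top.mp h)
    have : Nontrivial (R ⧸ Ideal.span {t}) := Ideal.Quotient.nontrivial_iff.mpr hne
    have : IsLocalRing (R ⧸ Ideal.span {t}) :=
      IsLocalRing.of_surjective' (Ideal.Quotient.mk _) Ideal.Quotient.mk_surjective
    have hmax : (maximalIdeal R).map (Ideal.Quotient.mk (Ideal.span {t})) =
        maximalIdeal (R ⧸ Ideal.span {t}) :=
      IsLocalRing.map_maximalIdeal_of_surjective _ Ideal.Quotient.mk_surjective
    have : Module.Finite (R ⧸ Ideal.span {t}) (QuotSMulTop t M) :=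
      Module.Finite.of_restrictScalars_finite R _ _
    have hreg3 : IsRegular (QuotSMulTop t M) (rs''.map (Ideal.Quotient.mk (Ideal.span {t}))) :=
      ((isRegular_cons_iff' M t rs'').mp ((isRegular_cons_iff M t rs'').mpr ⟨htreg, hreg''⟩)).2
    have hfree : Module.Free (R ⧸ Ideal.span {t}) (QuotSMulTop t M) :=
      ih (R ⧸ Ideal.span {t}) (QuotSMulTop t M) s' _ hs' (hspan'.trans hmax)
        (by simp [hlen'']) hreg3
    have : Module.FinitePresentation R M := Module.finitePresentation_of_finite R M
    exact (Module.free_quotSMulTop_iff_free R M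
      (IsLocalRing.maximalIdeal_le_jacobson _ ht) htreg).mp hfree

end Fermat.Agent.S57.CoreAlt
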