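import Mathlib.RingTheory.MvPowerSeries.Basic
import Mathlib.RingTheory.MvPowerSeries.Inverse
import Mathlib.RingTheory.MvPowerSeries.Equiv
import Mathlib.RingTheory.Regular.RegularSequence
import Mathlib.RingTheory.DiscreteValuationRing.Basic

set_option autoImplicit false

namespace Fermat.Agent.S57.PSReg

open MvPowerSeries RingTheory.Sequence

variable {R : Type} [CommRing R] {r : ℕ}

/-- The set of power series whose coefficients vanish at all exponents that are zero on the
first `i` variables. -/
def vanishSet (R : Type) [CommRing R] (r : ℕ) (i : ℕ) : Ideal (MvPowerSeries (Fin r) R) where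
  carrier := {f | ∀ m : Fin r →₀ ℕ, (∀ j : Fin r, (j : ℕ) < i → m j = 0) → coeff m f = 0}
  add_mem' := by
    intro f g hf hg m hm
    simp [hf m hm, hg m hm]
  zero_mem' := by
    intro m _
    simp
  smul_mem' := by
    classical
    intro c f hf m hm
    rw [smul_eq_mul, coeff_mul]
    apply Finset.sum_eq_zero
    rintro ⟨a, b⟩ hab
    rw [Finset.mem_antidiagonal] at hab
    have : coeff b f = 0 := by
      apply hf
      intro j hj
      have := hm j hj
      rw [← hab] at this
      simp only [Finsupp.coe_add, Pi.add_apply, Nat.add_eq_zero_iff] at this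
      exact this.2
    simp [this]

lemma mem_vanishSet {i : ℕ} {f : MvPowerSeries (Fin r) R} :
    f ∈ vanishSet R r i ↔
      ∀ m : Fin r →₀ ℕ, (∀ j : Fin r, (j : ℕ) < i → m j = 0) → coeff m f = 0 := Iff.rfl

lemma X_mem_vanishSet {i : ℕ} (j : Fin r) (hj : (j : ℕ) < i) :
    (X j : MvPowerSeries (Fin r) R) ∈ vanishSet R r i := by
  classical
  intro m hm
  rw [coeff_X, if_neg]
  intro h
  have := hm j hj
  rw [h] at this
  simp at this

lemma vanishSet_le_span (i : ℕ) :
    vanishSet R r i ≤
      Ideal.span {f : MvPowerSeries (Fin r) R | ∃ j : Fin r, (j : ℕ) < i ∧ X j = f} := by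
  classical
  induction i with
  | zero =>
    intro f hf
    have : f = 0 := by
      ext m
      rw [coeff_zero]
      exact hf m (fun j hj => absurd hj (Nat.not_lt_zero _))
    rw [this]
    exact Submodule.zero_mem _
  | succ i ih =>
    intro f hf
    have hmono : Ideal.span {f : MvPowerSeries (Fin r) R | ∃ j : Fin r, (j : ℕ) < i ∧ X j = f} ≤
        Ideal.span {f : MvPowerSeries (Fin r) R | ∃ j : Fin r, (j : ℕ) < i + 1 ∧ X j = f} := by
      apply Ideal.span_mono
      rintro g ⟨j, hj, rfl⟩
      exact ⟨j, Nat.lt_succ_of_lt hj, rfl⟩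
    by_cases hir : i < r
    · let s : Fin r := ⟨i, hir⟩
      let g : MvPowerSeries (Fin r) R := fun m => if m s = 0 then coeff m f else 0
      have hg : g ∈ vanishSet R r i := by
        intro m hm
        show (if m s = 0 then coeff m f else 0) = 0
        split_ifs with h
        · apply hf
          intro j hj
          rcases Nat.lt_succ_iff_lt_or_eq.mp hj with h1 | h1
          · exact hm j h1
          · have : j = s := Fin.ext h1
            rw [this]; exact h
        · rfl
      have hdiv : (X s : MvPowerSeries (Fin r) R) ∣ f - g := by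
        rw [X_dvd_iff]
        intro m hm
        rw [map_sub]
        show coeff m f - (if m s = 0 then coeff m f else 0) = 0
        rw [if_pos hm, sub_self]
      have h1 : f - g ∈
          Ideal.span {f : MvPowerSeries (Fin r) R | ∃ j : Fin r, (j : ℕ) < i + 1 ∧ X j = f} := by
        obtain ⟨h, hh⟩ := hdiv
        rw [hh]
        apply Ideal.mul_mem_right
        apply Ideal.subset_span
        exact ⟨s, Nat.lt_succ_self i, rfl⟩
      have h2 := hmono (ih hg)
      have : f = g + (f - g) := by ring
      rw [this]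
      exact Ideal.add_mem _ h2 h1
    · apply hmono
      apply ih
      intro m hm
      apply hf
      intro j hj
      apply hm
      have := j.isLt
      omega

lemma vanishSet_eq_span (i : ℕ) :
    vanishSet R r i =
      Ideal.span {f : MvPowerSeries (Fin r) R | ∃ j : Fin r, (j : ℕ) < i ∧ X j = f} := by
  apply le_antisymm (vanishSet_le_span i)
  rw [Ideal.span_le]
  rintro f ⟨j, hj, rfl⟩
  exact X_mem_vanishSet j hj

lemma ofList_take_eq (i : ℕ) :
    Ideal.ofList ((List.ofFn (fun j : Fin r => (X j : MvPowerSeries (Fin r) R))).take i) =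
      vanishSet R r i := by
  rw [vanishSet_eq_span]
  unfold Ideal.ofList
  congr 1
  ext f
  simp only [Set.mem_ofPred_eq, List.mem_take_iff_getElem, List.length_ofFn, List.getElem_ofFn]
  constructor
  · rintro ⟨j, hj, rfl⟩
    have hj' : j < i ∧ j < r := by simpa using hj
    exact ⟨⟨j, hj'.2⟩, hj'.1, rfl⟩
  · rintro ⟨j, hj, rfl⟩
    exact ⟨j, by simpa using hj, rfl⟩

lemma ofList_eq (R : Type) [CommRing R] (r : ℕ) :
    Ideal.ofList (List.ofFn (fun j : Fin r => (X j : MvPowerSeries (Fin r) R))) =
      vanishSet R r r := by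
  have := ofList_take_eq (R := R) (r := r) r
  rwa [List.take_of_length_le (by simp)] at this

lemma mem_vanishSet_self {f : MvPowerSeries (Fin r) R} :
    f ∈ vanishSet R r r ↔ constantCoeff f = 0 := by
  rw [mem_vanishSet]
  constructor
  · intro h
    rw [← coeff_zero_eq_constantCoeff_apply]
    exact h 0 (fun j _ => rfl)
  · intro h m hm
    have : m = 0 := by
      ext j
      exact hm j j.isLt
    rw [this, coeff_zero_eq_constantCoeff_apply, h]

lemma mem_vanishSet_of_X_mul {i : ℕ} (hi : i < r) {f : MvPowerSeries (Fin r) R}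
    (h : X ⟨i, hi⟩ * f ∈ vanishSet R r i) : f ∈ vanishSet R r i := by
  classical
  intro m hm
  have h1 := h (Finsupp.single ⟨i, hi⟩ 1 + m) (by
    intro j hj
    have hne : (⟨i, hi⟩ : Fin r) ≠ j := by
      intro h'
      rw [← h'] at hj
      exact absurd hj (lt_irrefl _)
    simp [hm j hj, Finsupp.single_eq_of_ne hne.symm])
  rw [X_def, coeff_add_monomial_mul, one_mul] at h1
  exact h1

theorem isWeaklyRegular_X (R : Type) [CommRing R] (r : ℕ) :
    IsWeaklyRegular (MvPowerSeries (Fin r) R)
      (List.ofFn (fun j : Fin r => (X j : MvPowerSeries (Fin r) R))) := by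
  refine ⟨fun i hi => ?_⟩
  have hi' : i < r := by simpa using hi
  rw [isSMulRegular_quotient_iff_mem_of_smul_mem]
  intro f hf
  rw [Ideal.smul_top_eq_map, Algebra.algebraMap_self, Ideal.map_id,
    Submodule.restrictScalars_self, ofList_take_eq] at hf ⊢
  rw [List.getElem_ofFn, smul_eq_mul] at hf
  exact mem_vanishSet_of_X_mul hi' hf

theorem isWeaklyRegular_X_append (r : ℕ) {ϖ : R} (hϖ : IsSMulRegular R ϖ) :
    IsWeaklyRegular (MvPowerSeries (Fin r) R)
      (List.ofFn (fun j : Fin r => (X j : MvPowerSeries (Fin r) R)) ++ [C ϖ]) := by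
  rw [isWeaklyRegular_append_iff]
  refine ⟨isWeaklyRegular_X R r, ?_⟩
  rw [isWeaklyRegular_singleton_iff, isSMulRegular_quotient_iff_mem_of_smul_mem]
  intro f hf
  rw [Ideal.smul_top_eq_map, Algebra.algebraMap_self, Ideal.map_id,
    Submodule.restrictScalars_self, ofList_eq, mem_vanishSet_self] at hf ⊢
  rw [smul_eq_mul, map_mul, constantCoeff_C] at hf
  exact hϖ (by simpa using hf)

theorem ofList_eq_maximalIdeal [IsLocalRing R] (r : ℕ) {ϖ : R}
    (hϖ : IsLocalRing.maximalIdeal R = Ideal.span {ϖ}) :
    Ideal.ofList (List.ofFn (fun j : Fin r => (X j : MvPowerSeries (Fin r) R)) ++ [C ϖ]) =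
      IsLocalRing.maximalIdeal (MvPowerSeries (Fin r) R) := by
  rw [Ideal.ofList_append, ofList_eq, Ideal.ofList_singleton]
  ext f
  rw [IsLocalRing.mem_maximalIdeal, mem_nonunits_iff, isUnit_iff_constantCoeff,
    ← mem_nonunits_iff, ← IsLocalRing.mem_maximalIdeal, hϖ, Ideal.mem_span_singleton',
    Submodule.mem_sup]
  constructor
  · rintro ⟨g, hg, h, hh, rfl⟩
    rw [mem_vanishSet_self] at hg
    rw [Ideal.mem_span_singleton'] at hh
    obtain ⟨a, rfl⟩ := hh
    refine ⟨constantCoeff a, ?_⟩
    simp [hg]
  · rintro ⟨a, ha⟩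
    refine ⟨f - C a * C ϖ, ?_, C a * C ϖ, ?_, by ring⟩
    · rw [mem_vanishSet_self]
      simp [ha]
    · rw [Ideal.mem_span_singleton']
      exact ⟨C a, rfl⟩

end Fermat.Agent.S57.PSReg
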