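import Mathlib.RingTheory.MvPowerSeries.Basic
import Mathlib.RingTheory.MvPowerSeries.Inverse
import Mathlib.RingTheory.MvPowerSeries.Equiv
import Mathlib.RingTheory.Regular.RegularSequence
import Mathlib.RingTheory.DiscreteValuationRing.Basic
import Mathlib.RingTheory.Flat.Basic
import Fermat.Prelude.Def_Algebra_PatchingDatum

set_option autoImplicit false

namespace Fermat.Agent.S57.Transfer

open MvPowerSeries RingTheory.Sequence

variable {𝒪 : Type} [CommRing 𝒪] {r : ℕ}
variable {R : Type} [CommRing R] [Algebra 𝒪 R] {M : Type} [AddCommGroup M] [Module R M]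
  (L : Algebra.PatchingLevel 𝒪 r R M ⊥)

/-- The coordinate map `c ↦ ∑ φ (c i) • b i`. -/
noncomputable def coordHom : (Fin L.d → MvPowerSeries (Fin r) 𝒪) →+ L.N where
  toFun c := ∑ i, L.φ (c i) • L.b i
  map_zero' := by simp
  map_add' := by
    intro c c'
    simp [add_smul, Finset.sum_add_distrib]

theorem coordHom_apply (c : Fin L.d → MvPowerSeries (Fin r) 𝒪) :
    coordHom L c = ∑ i, L.φ (c i) • L.b i := rfl

theorem coordHom_smul (a : MvPowerSeries (Fin r) 𝒪) (c : Fin L.d → MvPowerSeries (Fin r) 𝒪) :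
    coordHom L (a • c) = L.φ a • coordHom L c := by
  simp [coordHom_apply, Finset.smul_sum, mul_smul]

theorem coordHom_injective : Function.Injective (coordHom L) := by
  rw [injective_iff_map_eq_zero]
  intro c hc
  have := (L.b_rel c).mp hc
  funext i
  simpa using this i

theorem coordHom_surjective : Function.Surjective (coordHom L) := by
  intro x
  obtain ⟨c, hc⟩ := L.b_span x
  exact ⟨c, hc.symm⟩

/-- The coordinate equivalence (additive, semilinear along `φ`). -/
noncomputable def coordEquiv : (Fin L.d → MvPowerSeries (Fin r) 𝒪) ≃+ L.N :=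
  AddEquiv.ofBijective (coordHom L) ⟨coordHom_injective L, coordHom_surjective L⟩

theorem coordEquiv_apply (c : Fin L.d → MvPowerSeries (Fin r) 𝒪) :
    coordEquiv L c = ∑ i, L.φ (c i) • L.b i := rfl

theorem coordEquiv_smul (a : MvPowerSeries (Fin r) 𝒪) (c : Fin L.d → MvPowerSeries (Fin r) 𝒪) :
    coordEquiv L (a • c) = L.φ a • coordEquiv L c :=
  coordHom_smul L a c

theorem isWeaklyRegular_pi {ts : List (MvPowerSeries (Fin r) 𝒪)} (d : ℕ)
    (h : IsWeaklyRegular (MvPowerSeries (Fin r) 𝒪) ts) :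
    IsWeaklyRegular (Fin d → MvPowerSeries (Fin r) 𝒪) ts :=
  ((TensorProduct.lid (MvPowerSeries (Fin r) 𝒪)
    (Fin d → MvPowerSeries (Fin r) 𝒪)).isWeaklyRegular_congr ts).mp
      (h.isWeaklyRegular_rTensor (M₂ := Fin d → MvPowerSeries (Fin r) 𝒪))

/-- A weakly regular sequence on the power series ring maps under `φ` to a weakly regular
sequence on `N`. -/
theorem isWeaklyRegular_map (ts : List (MvPowerSeries (Fin r) 𝒪))
    (h : IsWeaklyRegular (MvPowerSeries (Fin r) 𝒪) ts) :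
    IsWeaklyRegular L.N (ts.map L.φ) := by
  refine (AddEquiv.isWeaklyRegular_congr (e := coordEquiv L) ?_).mp (isWeaklyRegular_pi L.d h)
  exact List.forall₂_map_right_iff.mpr <| List.forall₂_same.mpr fun a _ c => coordEquiv_smul L a c

theorem phi_C (a : 𝒪) : L.φ (C a) = C a := by
  have h : (C a : MvPowerSeries (Fin r) 𝒪) = algebraMap 𝒪 (MvPowerSeries (Fin r) 𝒪) a := by
    simp [MvPowerSeries.algebraMap_apply]
  rw [h, AlgHom.commutes]

theorem phi_X_mem_maximalIdeal [IsLocalRing 𝒪] [Nontrivial M] (i : Fin r) :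
    L.φ (X i) ∈ IsLocalRing.maximalIdeal (MvPowerSeries (Fin r) 𝒪) := by
  rw [IsLocalRing.mem_maximalIdeal, mem_nonunits_iff]
  intro hu
  have h1 : IsUnit (L.ψ (L.φ (X i))) := hu.map L.ψ
  rw [L.ψ_φ_X i] at h1
  have : Nontrivial R := Module.nontrivial R M
  exact not_isUnit_zero h1

theorem phi_C_mem_maximalIdeal [IsLocalRing 𝒪] {ϖ : 𝒪} (hϖ : ¬ IsUnit ϖ) :
    L.φ (C ϖ) ∈ IsLocalRing.maximalIdeal (MvPowerSeries (Fin r) 𝒪) := by
  rw [phi_C, IsLocalRing.mem_maximalIdeal, mem_nonunits_iff, isUnit_iff_constantCoeff,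
    constantCoeff_C]
  exact hϖ

/-- Membership in the maximal ideal, list shape `List.ofFn X ++ [C ϖ]`. -/
theorem map_mem_maximalIdeal [IsLocalRing 𝒪] [Nontrivial M] {ϖ : 𝒪} (hϖ : ¬ IsUnit ϖ) :
    ∀ y ∈ (List.ofFn (fun j : Fin r => (X j : MvPowerSeries (Fin r) 𝒪)) ++ [C ϖ]).map L.φ,
      y ∈ IsLocalRing.maximalIdeal (MvPowerSeries (Fin r) 𝒪) := by
  intro y hy
  rw [List.mem_map] at hy
  obtain ⟨t, ht, rfl⟩ := hy
  rw [List.mem_append, List.mem_singleton, List.mem_ofFn] at ht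
  rcases ht with ⟨i, rfl⟩ | rfl
  · exact phi_X_mem_maximalIdeal L i
  · exact phi_C_mem_maximalIdeal L hϖ

/-- Membership in the maximal ideal, list shape `C ϖ :: List.ofFn X`. -/
theorem map_mem_maximalIdeal' [IsLocalRing 𝒪] [Nontrivial M] {ϖ : 𝒪} (hϖ : ¬ IsUnit ϖ) :
    ∀ y ∈ (C ϖ :: List.ofFn (fun j : Fin r => (X j : MvPowerSeries (Fin r) 𝒪))).map L.φ,
      y ∈ IsLocalRing.maximalIdeal (MvPowerSeries (Fin r) 𝒪) := by
  intro y hy
  rw [List.mem_map] at hy
  obtain ⟨t, ht, rfl⟩ := hy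
  rw [List.mem_cons, List.mem_ofFn] at ht
  rcases ht with rfl | ⟨i, rfl⟩
  · exact phi_C_mem_maximalIdeal L hϖ
  · exact phi_X_mem_maximalIdeal L i

theorem nontrivial_N [Nontrivial M] : Nontrivial L.N :=
  L.π_surjective.nontrivial

theorem finite_N : Module.Finite (MvPowerSeries (Fin r) 𝒪) L.N := by
  classical
  refine ⟨⟨Finset.univ.image L.b, top_unique ?_⟩⟩
  intro x _
  obtain ⟨c, rfl⟩ := L.b_span x
  refine Submodule.sum_mem _ (fun i _ => Submodule.smul_mem _ _ (Submodule.subset_span ?_))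
  simp

end Fermat.Agent.S57.Transfer
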