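import Fermat.Prelude.Def_Algebra_PatchingDatum
import Mathlib.LinearAlgebra.FreeModule.Basic
import Mathlib.LinearAlgebra.Basis.Basic
import Mathlib.RingTheory.Ideal.Operations
import Mathlib.RingTheory.Ideal.Maps

set_option autoImplicit false

namespace Fermat.Agent.S57.Wiring

open MvPowerSeries

theorem mem_smul_top_iff_repr {S N ι : Type*} [CommRing S] [AddCommGroup N] [Module S N]
    (b : Module.Basis ι S N) (I : Ideal S) (x : N) :
    x ∈ I • (⊤ : Submodule S N) ↔ ∀ i, b.repr x i ∈ I := by
  rw [← b.span_eq, Submodule.mem_ideal_smul_span_iff_exists_sum]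
  constructor
  · rintro ⟨a, ha, rfl⟩ i
    have : (a.sum fun i c => c • b i) = b.repr.symm a := by
      rw [Module.Basis.repr_symm_apply, Finsupp.linearCombination_apply]
    rw [this, LinearEquiv.apply_symm_apply]
    exact ha i
  · intro h
    refine ⟨b.repr x, h, ?_⟩
    have := b.linearCombination_repr x
    rwa [Finsupp.linearCombination_apply] at this

variable {𝒪 : Type} [CommRing 𝒪] {r : ℕ} {R : Type} [CommRing R] [Algebra 𝒪 R]
  {M : Type} [AddCommGroup M] [Module R M] {J : Ideal (MvPowerSeries (Fin r) 𝒪)}

/-- `π` of a finite linear combination. -/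
theorem pi_linearCombination (L : Algebra.PatchingLevel 𝒪 r R M J) {ι : Type*}
    (v : ι → L.N) (l : ι →₀ MvPowerSeries (Fin r) 𝒪) :
    L.π (Finsupp.linearCombination _ v l) =
      Finsupp.linearCombination R (fun i => L.π (v i)) (l.mapRange L.ψ (map_zero _)) := by
  rw [Finsupp.linearCombination_apply, Finsupp.linearCombination_apply,
    Finsupp.sum_mapRange_index (by intro i; simp)]
  simp only [Finsupp.sum, map_sum, L.π_smul]

/-- Final wiring: once `L.N` is known to be free over the power series ring, the conclusion
of S57 follows. -/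
theorem result_of_free [Nontrivial M] (L : Algebra.PatchingLevel 𝒪 r R M J)
    [Module.Free (MvPowerSeries (Fin r) 𝒪) L.N] :
    Module.Free R M ∧ Module.annihilator R M = ⊥ ∧
      RingHom.ker L.ψ = Ideal.span (Set.range fun i : Fin r => L.φ (MvPowerSeries.X i)) := by
  classical
  set S := MvPowerSeries (Fin r) 𝒪 with hS
  set I : Ideal S := Ideal.span (Set.range fun i : Fin r => L.φ (MvPowerSeries.X i)) with hI
  let ι := Module.Free.ChooseBasisIndex S L.N
  let b : Module.Basis ι S L.N := Module.Free.chooseBasis S L.N
  have hIker : I ≤ RingHom.ker L.ψ := by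
    rw [hI, Ideal.span_le]
    rintro _ ⟨i, rfl⟩
    exact L.ψ_φ_X i
  have hker : ∀ x : L.N, L.π x = 0 ↔ ∀ i, b.repr x i ∈ I := by
    intro x
    rw [L.ker_π x, mem_smul_top_iff_repr b]
  -- the images of the basis vectors form an `R`-basis of `M`
  have hli : LinearIndependent R (fun i => L.π (b i)) := by
    rw [linearIndependent_iff]
    intro l hl
    obtain ⟨l', rfl⟩ := Finsupp.mapRange_surjective L.ψ (map_zero _) L.ψ_surjective l
    rw [← pi_linearCombination L b l', hker] at hl
    ext i
    have := hIker (hl i)
    rw [Module.Basis.repr_linearCombination] at this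
    simpa using this
  have hsp : ⊤ ≤ Submodule.span R (Set.range fun i => L.π (b i)) := by
    intro m _
    obtain ⟨x, rfl⟩ := L.π_surjective m
    rw [← b.linearCombination_repr x, pi_linearCombination L b]
    rw [← Finsupp.range_linearCombination]
    exact LinearMap.mem_range_self _ _
  have hfree : Module.Free R M := Module.Free.of_basis (Module.Basis.mk hli hsp)
  refine ⟨hfree, ?_, ?_⟩
  · rw [Module.annihilator_eq_bot]
    infer_instance
  · refine le_antisymm ?_ hIker
    intro f hf
    have hN : Nontrivial L.N := by
      obtain ⟨m, hm⟩ := exists_ne (0 : M)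
      obtain ⟨x, rfl⟩ := L.π_surjective m
      exact ⟨x, 0, fun h => hm (by rw [h, map_zero])⟩
    have hι : Nonempty ι := by
      by_contra h
      rw [not_nonempty_iff] at h
      have : Subsingleton L.N := b.repr.toEquiv.subsingleton
      exact not_subsingleton L.N this
    obtain ⟨i₀⟩ := hι
    have h1 : L.π (f • b i₀) = 0 := by
      rw [L.π_smul, RingHom.mem_ker.mp hf, zero_smul]
    have h2 := (hker _).mp h1 i₀
    simpa using h2

end Fermat.Agent.S57.Wiring
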