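import Mathlib.RingTheory.Regular.ProjectiveDimension
import Mathlib.RingTheory.FiniteLength
import Mathlib.RingTheory.SimpleModule.Basic
import Mathlib.Algebra.Category.ModuleCat.ProjectiveDimension

set_option autoImplicit false

namespace Fermat.Agent.S57.Core

open CategoryTheory Abelian IsLocalRing RingTheory.Sequence

/-- A finite length module over a local ring has projective dimension bounded by that of the
residue field. -/
theorem hasProjectiveDimensionLT_of_isFiniteLength {B : Type} [CommRing B] [IsLocalRing B]
    (n : ℕ) (hk : HasProjectiveDimensionLT (ModuleCat.of B (B ⧸ maximalIdeal B)) n)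
    {Q : Type} [AddCommGroup Q] [Module B Q] (hQ : IsFiniteLength B Q) :
    HasProjectiveDimensionLT (ModuleCat.of B Q) n := by
  induction hQ with
  | @of_subsingleton M _ _ _ =>
    have h0 : HasProjectiveDimensionLT (ModuleCat.of B M) 0 :=
      (ModuleCat.isZero_of_subsingleton (ModuleCat.of B M)).hasProjectiveDimensionLT_zero
    exact hasProjectiveDimensionLT_of_ge (ModuleCat.of B M) 0 n (Nat.zero_le n)
  | @of_simple_quotient M _ _ P hsimple hP ih =>
    let f : M →ₗ[B] M ⧸ P := P.mkQ
    have hf : Function.Surjective f := P.mkQ_surjective
    let S : ShortComplex (ModuleCat.{0} B) := f.shortComplexKer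
    have hS : S.ShortExact := LinearMap.shortExact_shortComplexKer hf
    have h1 : HasProjectiveDimensionLT S.X₁ n := by
      have e : P ≃ₗ[B] LinearMap.ker f := LinearEquiv.ofEq _ _ (Submodule.ker_mkQ P).symm
      exact hasProjectiveDimensionLT_of_iso e.toModuleIso n
    have h3 : HasProjectiveDimensionLT S.X₃ n := by
      obtain ⟨I, hI, ⟨e⟩⟩ := isSimpleModule_iff_quot_maximal.mp hsimple
      have hIm : I = maximalIdeal B := IsLocalRing.eq_maximalIdeal hI
      subst hIm
      exact hasProjectiveDimensionLT_of_iso e.symm.toModuleIso n
    exact hS.hasProjectiveDimensionLT_X₂ n h1 h3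

/-- A finitely generated module over a Noetherian local ring having a weakly regular sequence
(inside the maximal ideal) whose length bounds the projective dimension of the residue field,
and such that the quotient has finite length, is free. -/
theorem free_of_isWeaklyRegular {B : Type} [CommRing B] [IsLocalRing B] [IsNoetherianRing B]
    {N : Type} [AddCommGroup N] [Module B N] [Module.Finite B N]
    (rs : List B) (hreg : IsWeaklyRegular N rs) (hmem : ∀ x ∈ rs, x ∈ maximalIdeal B)
    (hk : HasProjectiveDimensionLT (ModuleCat.of B (B ⧸ maximalIdeal B)) (rs.length + 1))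
    (hfl : IsFiniteLength B (N ⧸ (Ideal.ofList rs • ⊤ : Submodule B N))) :
    Module.Free B N := by
  rcases subsingleton_or_nontrivial N with hN | hN
  · exact Module.Free.of_subsingleton B N
  have h1 := ModuleCat.projectiveDimension_quotient_eq_add_length_of_isWeaklyRegular
    (ModuleCat.of B N) rs hreg hmem
  have h2 : HasProjectiveDimensionLE
      (ModuleCat.of B (N ⧸ (Ideal.ofList rs • ⊤ : Submodule B N))) rs.length :=
    hasProjectiveDimensionLT_of_isFiniteLength (rs.length + 1) hk hfl
  rw [← projectiveDimension_le_iff, h1] at h2
  have h3 : projectiveDimension (ModuleCat.of B N) ≤ ((0 : ℕ) : WithBot ℕ∞) := by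
    rw [← ENat.WithBot.add_le_add_natCast_right_iff (c := rs.length)]
    simpa using h2
  rw [projectiveDimension_le_iff] at h3
  have h4 : Projective (ModuleCat.of B N) := (projective_iff_hasProjectiveDimensionLE_zero _).mpr h3
  have h5 : Module.Projective B N := (IsProjective.iff_projective N).mpr h4
  exact Module.free_of_flat_of_isLocalRing

/-- Finite length of the quotient in the relative situation. -/
theorem isFiniteLength_quotient {A B : Type} [CommRing A] [CommRing B] [Algebra A B]
    [IsNoetherianRing B]
    {N : Type} [AddCommGroup N] [Module A N] [Module B N] [IsScalarTower A B N]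
    [Module.Finite A N]
    (as : List A) (hmax : (Ideal.ofList as).IsMaximal) :
    IsFiniteLength B
      (N ⧸ (Ideal.ofList (as.map (algebraMap A B)) • ⊤ : Submodule B N)) := by
  set P : Submodule B N := Ideal.ofList (as.map (algebraMap A B)) • ⊤ with hP
  have : Module.Finite B N := Module.Finite.of_restrictScalars_finite A B N
  rw [isFiniteLength_iff_isNoetherian_isArtinian]
  refine ⟨inferInstance, ?_⟩
  -- the `A`-module quotient
  let QA := N ⧸ (Ideal.ofList as • ⊤ : Submodule A N)
  let : Field (A ⧸ Ideal.ofList as) := Ideal.Quotient.field _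
  have : Module.Finite (A ⧸ Ideal.ofList as) QA :=
    Module.Finite.of_restrictScalars_finite A (A ⧸ Ideal.ofList as) QA
  have : IsArtinian (A ⧸ Ideal.ofList as) QA := inferInstance
  have : IsArtinian A QA :=
    isArtinian_of_surjective_algebraMap (R := A ⧸ Ideal.ofList as) (S := A) (M := QA)
      Ideal.Quotient.mk_surjective
  have hle : (Ideal.ofList as • ⊤ : Submodule A N) ≤
      LinearMap.ker (P.mkQ.restrictScalars A) := by
    rw [Submodule.smul_le]
    intro a ha x _
    rw [LinearMap.mem_ker, LinearMap.restrictScalars_apply, Submodule.mkQ_apply,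
      Submodule.Quotient.mk_eq_zero, ← algebraMap_smul B a x]
    refine Submodule.smul_mem_smul ?_ Submodule.mem_top
    rw [← Ideal.map_ofList]
    exact Ideal.mem_map_of_mem _ ha
  let g : QA →ₗ[A] (N ⧸ P) := Submodule.liftQ _ (P.mkQ.restrictScalars A) hle
  have hg : Function.Surjective g := by
    intro q
    obtain ⟨x, rfl⟩ := P.mkQ_surjective q
    exact ⟨Submodule.Quotient.mk x, rfl⟩
  have : IsArtinian A (N ⧸ P) := isArtinian_of_surjective _ g hg
  exact isArtinian_of_tower A (S := B) inferInstance

/-- The abstract core: a `B`-module which is free of finite rank over `A` through a ring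
homomorphism `f : A → B` is free over `B`, provided `B` is Noetherian local, `A` has a weakly
regular sequence `as` generating a maximal ideal and mapped into the maximal ideal of `B`,
and the residue field of `B` has projective dimension at most the length of `as`. -/
theorem free_of_bijective {A B : Type} [CommRing A] [CommRing B] (f : A →+* B)
    [IsLocalRing B] [IsNoetherianRing B]
    {N : Type} [AddCommGroup N] [Module B N]
    (d : ℕ) (b : Fin d → N)
    (hb : Function.Bijective (fun c : Fin d → A => ∑ i, f (c i) • b i))
    (as : List A) (hreg : IsWeaklyRegular A as) (hmax : (Ideal.ofList as).IsMaximal)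
    (hmem : ∀ a ∈ as, f a ∈ maximalIdeal B)
    (hk : HasProjectiveDimensionLT (ModuleCat.of B (B ⧸ maximalIdeal B)) (as.length + 1)) :
    Module.Free B N := by
  let : Algebra A B := f.toAlgebra
  let : Module A N := Module.compHom N f
  have hsm : ∀ (a : A) (x : N), a • x = f a • x := fun _ _ => rfl
  have halg : ∀ a : A, algebraMap A B a = f a := fun _ => rfl
  have : IsScalarTower A B N := ⟨fun a c x => by
    show (f a * c) • x = f a • (c • x)
    rw [mul_smul]⟩
  let e : (Fin d → A) ≃ₗ[A] N := LinearEquiv.ofBijective
    { toFun := fun c => ∑ i, f (c i) • b i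
      map_add' := fun c c' => by
        simp only [Pi.add_apply, map_add, add_smul, Finset.sum_add_distrib]
      map_smul' := fun a c => by
        simp only [Pi.smul_apply, smul_eq_mul, map_mul, mul_smul, RingHom.id_apply, hsm,
          Finset.smul_sum] } hb
  have : Module.Free A N := Module.Free.of_equiv e
  have : Module.Finite A N := Module.Finite.equiv e
  have : Module.Finite B N := Module.Finite.of_restrictScalars_finite A B N
  apply free_of_isWeaklyRegular (as.map (algebraMap A B))
  · rw [isWeaklyRegular_map_algebraMap_iff]
    exact ((TensorProduct.rid A N).isWeaklyRegular_congr as).mp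
      (hreg.isWeaklyRegular_lTensor (M₂ := N))
  · intro x hx
    obtain ⟨a, ha, rfl⟩ := List.mem_map.mp hx
    exact hmem a ha
  · rw [List.length_map]
    exact hk
  · exact isFiniteLength_quotient as hmax

/-- The residue field of a Noetherian local ring whose maximal ideal is generated by a weakly
regular sequence `rs` has projective dimension at most the length of `rs`. -/
theorem hasProjectiveDimensionLT_residue {B : Type} [CommRing B] [IsLocalRing B]
    [IsNoetherianRing B] (rs : List B) (hreg : IsWeaklyRegular B rs)
    (hmax : Ideal.ofList rs = maximalIdeal B) :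
    HasProjectiveDimensionLT (ModuleCat.of B (B ⧸ maximalIdeal B)) (rs.length + 1) := by
  have hmem : ∀ x ∈ rs, x ∈ maximalIdeal B := by
    intro x hx
    rw [← hmax]
    exact Ideal.subset_span hx
  have hR : IsRegular B rs := IsRegular.of_isWeaklyRegular_of_mem_maximalIdeal B hmem hreg
  have h1 := ModuleCat.projectiveDimension_quotient_eq_length.{0} rs hR
  have h2 : HasProjectiveDimensionLE
      (ModuleCat.of B (Shrink.{0} (B ⧸ Ideal.ofList rs))) rs.length := by
    rw [← projectiveDimension_le_iff, h1]
  rw [← hmax]
  exact hasProjectiveDimensionLT_of_iso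
    (Shrink.linearEquiv B (B ⧸ Ideal.ofList rs)).toModuleIso (rs.length + 1)

/-- Specialisation of `free_of_bijective` in which the source ring equals the target ring. -/
theorem free_of_bijective_self {B : Type} [CommRing B] (f : B →+* B)
    [IsLocalRing B] [IsNoetherianRing B]
    {N : Type} [AddCommGroup N] [Module B N]
    (d : ℕ) (b : Fin d → N)
    (hb : Function.Bijective (fun c : Fin d → B => ∑ i, f (c i) • b i))
    (rs : List B) (hreg : IsWeaklyRegular B rs) (hmax : Ideal.ofList rs = maximalIdeal B)
    (hmem : ∀ a ∈ rs, f a ∈ maximalIdeal B) :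
    Module.Free B N :=
  free_of_bijective f d b hb rs hreg (hmax ▸ IsLocalRing.maximalIdeal.isMaximal B) hmem
    (hasProjectiveDimensionLT_residue rs hreg hmax)

end Fermat.Agent.S57.Core
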