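import Fermat.Prelude.Def_Algebra_PatchingDatum
import Fermat.Agent.S57.PSReg
import Mathlib.RingTheory.Regular.ProjectiveDimension

set_option autoImplicit false

namespace Fermat.Agent.S57.Prep

open MvPowerSeries RingTheory.Sequence CategoryTheory

/-- The sequence `X₀, …, X_{r-1}, ϖ` is regular on `𝒪⟦X⟧`. -/
theorem isRegular_X_append {𝒪 : Type} [CommRing 𝒪] [IsDomain 𝒪] [IsDiscreteValuationRing 𝒪]
    (r : ℕ) {ϖ : 𝒪} (hϖ : Irreducible ϖ) :
    IsRegular (MvPowerSeries (Fin r) 𝒪)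
      (List.ofFn (fun j : Fin r => (X j : MvPowerSeries (Fin r) 𝒪)) ++ [C ϖ]) := by
  have hmax := PSReg.ofList_eq_maximalIdeal (R := 𝒪) r hϖ.maximalIdeal_eq
  refine IsRegular.of_isWeaklyRegular_of_mem_maximalIdeal _ ?_
    (PSReg.isWeaklyRegular_X_append r (IsSMulRegular.of_ne_zero hϖ.ne_zero))
  intro x hx
  rw [← hmax]
  exact Ideal.subset_span hx

/-- The residue field of `𝒪⟦X₀, …, X_{r-1}⟧` has projective dimension at most `r + 1`. -/
theorem hasProjectiveDimensionLE_residue (𝒪 : Type) [CommRing 𝒪] [IsDomain 𝒪]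
    [IsDiscreteValuationRing 𝒪] (r : ℕ) :
    HasProjectiveDimensionLE
      (ModuleCat.of (MvPowerSeries (Fin r) 𝒪)
        (MvPowerSeries (Fin r) 𝒪 ⧸ IsLocalRing.maximalIdeal (MvPowerSeries (Fin r) 𝒪)))
      (r + 1) := by
  obtain ⟨ϖ, hϖ⟩ := IsDiscreteValuationRing.exists_irreducible 𝒪
  have hmax := PSReg.ofList_eq_maximalIdeal (R := 𝒪) r hϖ.maximalIdeal_eq
  have hreg := isRegular_X_append r hϖ
  have h1 := ModuleCat.projectiveDimension_quotient_eq_length.{0} _ hreg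
  rw [hmax] at h1
  have e : Shrink.{0} (MvPowerSeries (Fin r) 𝒪 ⧸ IsLocalRing.maximalIdeal (MvPowerSeries (Fin r) 𝒪))
      ≃ₗ[MvPowerSeries (Fin r) 𝒪]
      (MvPowerSeries (Fin r) 𝒪 ⧸ IsLocalRing.maximalIdeal (MvPowerSeries (Fin r) 𝒪)) :=
    Shrink.linearEquiv _ _
  have h2 := ModuleCat.projectiveDimension_eq_of_linearEquiv
    (M := ModuleCat.of (MvPowerSeries (Fin r) 𝒪)
      (Shrink.{0} (MvPowerSeries (Fin r) 𝒪 ⧸ IsLocalRing.maximalIdeal (MvPowerSeries (Fin r) 𝒪))))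
    (N := ModuleCat.of (MvPowerSeries (Fin r) 𝒪)
      (MvPowerSeries (Fin r) 𝒪 ⧸ IsLocalRing.maximalIdeal (MvPowerSeries (Fin r) 𝒪))) e
  rw [← projectiveDimension_le_iff, ← h2, h1]
  simp

/-- Any `𝒪`-algebra homomorphism between power series rings over a local ring `𝒪` is local:
it maps the maximal ideal into the maximal ideal. -/
theorem algHom_mem_maximalIdeal {𝒪 : Type} [CommRing 𝒪] [IsLocalRing 𝒪] {σ τ : Type}
    (φ : MvPowerSeries σ 𝒪 →ₐ[𝒪] MvPowerSeries τ 𝒪) (f : MvPowerSeries σ 𝒪)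
    (hf : f ∈ IsLocalRing.maximalIdeal (MvPowerSeries σ 𝒪)) :
    φ f ∈ IsLocalRing.maximalIdeal (MvPowerSeries τ 𝒪) := by
  rw [IsLocalRing.mem_maximalIdeal, mem_nonunits_iff] at hf ⊢
  intro hu
  rw [isUnit_iff_constantCoeff] at hu hf
  set v₀ : 𝒪 := constantCoeff (φ f) with hv₀
  have h1 : IsUnit (constantCoeff (f - C v₀)) := by
    rw [map_sub, constantCoeff_C]
    by_contra h
    have ha : constantCoeff f ∈ IsLocalRing.maximalIdeal 𝒪 := hf
    have hb : constantCoeff f - v₀ ∈ IsLocalRing.maximalIdeal 𝒪 := h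
    have hc : v₀ ∈ IsLocalRing.maximalIdeal 𝒪 := by
      have := Ideal.sub_mem _ ha hb
      simpa using this
    exact hc hu
  have h2 : IsUnit (f - C v₀) := isUnit_iff_constantCoeff.mpr h1
  have h3 : IsUnit (φ (f - C v₀)) := h2.map φ
  have h4 : φ (C v₀) = C v₀ := φ.commutes v₀
  rw [map_sub, h4, isUnit_iff_constantCoeff, map_sub, constantCoeff_C, ← hv₀, sub_self] at h3
  exact not_isUnit_zero h3

variable {𝒪 : Type} [CommRing 𝒪] {r : ℕ} {R : Type} [CommRing R] [Algebra 𝒪 R]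
  {M : Type} [AddCommGroup M] [Module R M]

/-- For a patching level with trivial relation ideal, `c ↦ ∑ φ(cᵢ) • bᵢ` is a bijection. -/
theorem bijective_of_level (L : Algebra.PatchingLevel 𝒪 r R M ⊥) :
    Function.Bijective
      (fun c : Fin L.d → MvPowerSeries (Fin r) 𝒪 => ∑ i, L.φ (c i) • L.b i) := by
  constructor
  · intro c c' h
    have h0 : ∑ i, L.φ ((c - c') i) • L.b i = 0 := by
      simp only [Pi.sub_apply, map_sub, sub_smul, Finset.sum_sub_distrib]
      exact sub_eq_zero.mpr h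
    have := (L.b_rel (c - c')).mp h0
    funext i
    have hi := this i
    rw [Ideal.mem_bot, Pi.sub_apply, sub_eq_zero] at hi
    exact hi
  · intro x
    obtain ⟨c, hc⟩ := L.b_span x
    exact ⟨c, hc.symm⟩

end Fermat.Agent.S57.Prep
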